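import Fermat.Agent.FF.Degree
import Fermat.Prelude.Def_AlgebraicCurve_IsCurveOver

/-!
# Riemann's theorem

`ℓ(D) - h¹(D) = deg D + ℓ(0) - g` with `h¹` the codimension of the repartitions of `D`
(`riemann_roch`), which is `deg D + 1 - g` over an algebraically closed field
(`riemann_roch_isAlgClosed`). There is no duality here: `h¹` is not identified with `ℓ(K - D)`.

`FF` is the library on function fields in one variable: `IsFunctionField K F` says that `F` is
finite over `K(x)` for a transcendental `x`, and `Place`, `Divisor`, `Pic0` and the repartitions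
are those of the prelude. The genus here is `genusFF = dim H¹(0)`, defined for any constant field.
The prelude's `genus`, read off from a canonical divisor, is equal to it in characteristic zero
over an algebraically closed field (`genus_eq_genusFF` in `FF/GenusEq`).

## References

* H. Stichtenoth, *Algebraic Function Fields and Codes*, chapter 1 (after A. Weil).
-/

set_option autoImplicit false

noncomputable section

open scoped Classical

open AlgebraicCurve Polynomial IntermediateField WithZero

namespace Fermat.Agent.FF

variable {K F : Type*} [Field K] [Field F] [Algebra K F] [IsFunctionField K F]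

/-! ### The function `deg D - ℓ(D)` is bounded -/

variable (K) in
/-- `deg D - ℓ(D)`. -/
def gam (D : Divisor K F) : ℤ := Divisor.degree D - ell K D

theorem gam_mono {D E : Divisor K F} (h : D ≤ E) : gam K D ≤ gam K E := by
  have := ell_le_of_le h
  unfold gam
  omega

theorem gam_add_div {f : F} (hf : f ≠ 0) (D : Divisor K F) : gam K (D + div K f) = gam K D := by
  rw [gam, gam, ell_add_div hf, map_add, degree_div, add_zero]

/-- A divisor with `ℓ(D) > 0` is linearly equivalent to an effective one. -/
theorem exists_ne_zero_of_ell_pos {D : Divisor K F} (h : 0 < ell K D) :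
    ∃ f : F, f ≠ 0 ∧ 0 ≤ D + div K f := by
  have h' : 0 < Module.finrank K (riemannRochSpace D) := by
    unfold ell at h; omega
  obtain ⟨f, hf⟩ := Module.finrank_pos_iff_exists_ne_zero.mp h'
  have hf0 : (f : F) ≠ 0 := fun h => hf (Subtype.ext h)
  refine ⟨f, hf0, Finsupp.le_def.mpr fun v => ?_⟩
  have := le_ord_of_mem_ordGe v hf0 (mem_riemannRochSpace'.mp f.2 v)
  simp only [Finsupp.coe_zero, Pi.zero_apply, Finsupp.add_apply, div_apply]
  omega

theorem exists_gam_le : ∃ g : ℤ, ∀ D : Divisor K F, gam K D ≤ g := by
  obtain ⟨x, hx, -⟩ := ‹IsFunctionField K F›.exists_finite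
  obtain ⟨C, hC, hCl⟩ := exists_le_ell_poles hx
  have := finiteDimensional_adjoin hx
  set n := Module.finrank K⟮x⟯ F
  set B := poles K x
  have hn : (0 : ℤ) < n := by
    have := Module.finrank_pos (R := K⟮x⟯) (M := F)
    omega
  have hlow : ∀ l : ℕ, ((l : ℤ) + 1) * n - Divisor.degree C ≤ ell K (l • B) := fun l => by
    have h1 := ell_le_of_le (le_add_of_nonneg_left hC : l • B ≤ C + l • B)
    rw [map_add, add_sub_cancel_right] at h1
    have := hCl l
    omega
  have hlB : ∀ l : ℕ, gam K (l • B) ≤ Divisor.degree C := fun l => by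
    have := hlow l
    have hd : Divisor.degree (l • B) = (l : ℤ) * n := by
      rw [map_nsmul, degree_poles hx, nsmul_eq_mul]
    unfold gam
    rw [hd]
    linarith
  refine ⟨Divisor.degree C, fun D => ?_⟩
  let P : Divisor K F := Finsupp.mapRange (fun n : ℤ => max n 0) (by simp) D
  have hP : (0 : Divisor K F) ≤ P := Finsupp.le_def.mpr fun v => by simp [P]
  have hDP : D ≤ P := Finsupp.le_def.mpr fun v => by simp [P]
  set l : ℕ := (Divisor.degree P + Divisor.degree C).toNat
  have h1 := ell_le_of_le (sub_le_self _ hP : l • B - P ≤ l • B)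
  rw [map_sub, sub_sub_cancel] at h1
  have h2 := hlow l
  have h3 : Divisor.degree P + Divisor.degree C ≤ l := Int.self_le_toNat _
  have h4 : (l : ℤ) + 1 ≤ ((l : ℤ) + 1) * n := le_mul_of_one_le_right (by omega) (by omega)
  obtain ⟨f, hf, hfl⟩ := exists_ne_zero_of_ell_pos (D := l • B - P) (by omega)
  calc gam K D ≤ gam K P := gam_mono hDP
    _ ≤ gam K (l • B + div K f) := gam_mono (by
        have : l • B + div K f - P = l • B - P + div K f := by abel
        rw [← sub_nonneg, this]; exact hfl)
    _ ≤ Divisor.degree C := by rw [gam_add_div hf]; exact hlB l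

theorem exists_gam_max : ∃ D₀ : Divisor K F, ∀ D : Divisor K F, gam K D ≤ gam K D₀ := by
  obtain ⟨g, hg⟩ := exists_gam_le (K := K) (F := F)
  obtain ⟨m, ⟨D₀, rfl⟩, hm⟩ := Int.exists_greatest_of_bdd
    (P := fun z => ∃ D : Divisor K F, gam K D = z) ⟨g, fun z ⟨D, hD⟩ => hD ▸ hg D⟩
    ⟨_, 0, rfl⟩
  exact ⟨D₀, fun D => hm _ ⟨D, rfl⟩⟩

/-! ### Repartitions -/

/-- The repartitions are the families with poles at only finitely many places. -/
theorem mem_repartitions_iff {α : Place K F → F} :
    α ∈ repartitions K F ↔ {v : Place K F | v.ord (α v) < 0}.Finite := by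
  refine ⟨fun h => ?_, mem_repartitions_of_finite_ord⟩
  induction h using Algebra.adjoin_induction with
  | mem β hβ =>
    refine hβ.subset fun v hv => ?_
    exact v.not_adicValuation_le_one_iff.mpr hv
  | algebraMap f => exact finite_poles f
  | add a b _ _ ha hb =>
    refine (ha.union hb).subset fun v hv => ?_
    by_contra hc
    simp only [Set.mem_union, Set.mem_ofPred_eq, not_or, not_lt] at hc
    have h := add_mem (mem_ordGe_of_le v hc.1) (mem_ordGe_of_le v hc.2)
    have := ord_nonneg v ((mem_ordGe_zero v).mp h)
    simp only [Set.mem_ofPred_eq, Pi.add_apply] at hv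
    omega
  | mul a b _ _ ha hb =>
    refine (ha.union hb).subset fun v hv => ?_
    by_contra hc
    simp only [Set.mem_union, Set.mem_ofPred_eq, not_or, not_lt] at hc
    have h := mul_mem_ordGe v (mem_ordGe_of_le v hc.1) (mem_ordGe_of_le v hc.2)
    have := ord_nonneg v ((mem_ordGe_zero v).mp (by simpa using h))
    simp only [Set.mem_ofPred_eq, Pi.mul_apply] at hv
    omega

omit [IsFunctionField K F] in
/-- Membership in `repartitionsOf D`, place by place. -/
theorem mem_repartitionsOf' {D : Divisor K F} {α : repartitions K F} :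
    α ∈ repartitionsOf D ↔ ∀ v : Place K F, (α : Place K F → F) v ∈ ordGe v (-D v) := by
  simp only [mem_repartitionsOf_iff, mem_ordGe]

/-- A repartition supported at one place. -/
def singleRep (v : Place K F) : F →ₗ[K] repartitions K F where
  toFun f := ⟨fun w => if w = v then f else 0, mem_repartitions_of_finite_ord <| by
    refine (Set.finite_singleton v).subset fun w hw => ?_
    classical
    by_contra h
    simp [show w ≠ v from h] at hw⟩
  map_add' f g := Subtype.ext (funext fun w => by
    show (if w = v then f + g else 0) = (if w = v then f else 0) + (if w = v then g else 0)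
    split_ifs <;> simp)
  map_smul' c f := Subtype.ext (funext fun w => by
    show (if w = v then c • f else 0) = c • (if w = v then f else 0)
    split_ifs <;> simp)

omit [IsFunctionField K F] in
theorem singleRep_apply (v w : Place K F) (f : F) :
    ((singleRep v f : repartitions K F) : Place K F → F) w = if w = v then f else 0 := rfl

omit [IsFunctionField K F] in
/-- The constant repartition of a function is principal. -/
theorem mem_principal_algebraMap (f : F) :
    algebraMap F (repartitions K F) f ∈ principalRepartitions K F :=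
  mem_principalRepartitions_iff.mpr ⟨f, rfl⟩

variable (K) in
/-- The dimension of `H¹(D)`. -/
def h1 (D : Divisor K F) : ℤ := Module.finrank K (H1 D)

omit [IsFunctionField K F] in
theorem genusFF_eq : (genusFF K F : ℤ) = h1 K (0 : Divisor K F) := rfl

omit [IsFunctionField K F] in
/-- Adding a place increases a divisor. -/
theorem le_add_single (D : Divisor K F) (v : Place K F) : D ≤ D + Finsupp.single v 1 :=
  le_add_of_nonneg_right (Finsupp.le_def.mpr fun w => by
    rcases eq_or_ne w v with rfl | hw <;> simp [*])

omit [IsFunctionField K F] in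
theorem add_single_apply_self (D : Divisor K F) (v : Place K F) :
    (D + Finsupp.single v 1 : Divisor K F) v = D v + 1 := by simp

omit [IsFunctionField K F] in
theorem add_single_apply_ne (D : Divisor K F) {v w : Place K F} (h : w ≠ v) :
    (D + Finsupp.single v 1 : Divisor K F) w = D w := by simp [Finsupp.single_eq_of_ne h]

omit [IsFunctionField K F] in
/-- A function `z` with a pole of order at most `D v + 1` at `v` becomes integral after
multiplication by `t` when `v.ord t = D v + 1`. -/
private theorem mul_mem_ordGe_of_ord_eq {D : Divisor K F} {v : Place K F} {t : F}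
    (ht : v.ord t = D v + 1) {z : F}
    (hz : z ∈ ordGe v (-(D + Finsupp.single v 1 : Divisor K F) v)) : z * t ∈ ordGe v 0 :=
  ordGe_anti v (by rw [add_single_apply_self]; omega) (mul_mem_ordGe v hz (mem_ordGe_of_le v ht.ge))

/-- For `v.ord t = D v + 1`, the residue of `f t` at `v` on `L(D + v)`. -/
private def resMap (D : Divisor K F) (v : Place K F) {t : F} (ht : v.ord t = D v + 1) :
    riemannRochSpace (D + Finsupp.single v 1) →ₗ[K] v.ResidueField :=
  (residueLin v).comp (LinearMap.codRestrict (ordGe v 0)
    ((LinearMap.mulRight K t).comp (riemannRochSpace (D + Finsupp.single v 1)).subtype)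
    fun f => mul_mem_ordGe_of_ord_eq ht (mem_riemannRochSpace'.mp f.2 v))

omit [IsFunctionField K F] in
/-- If `x t` and `y` have the same residue at `v`, then `y / t - x` has a pole of order at
most `D v`. -/
private theorem div_sub_mem_ordGe {D : Divisor K F} {v : Place K F} {t : F} (ht0 : t ≠ 0)
    (ht : v.ord t = D v + 1) {x : F} {y : ordGe v 0} (hx : x * t ∈ ordGe v 0)
    (h : residueLin v y = residueLin v ⟨x * t, hx⟩) : (y : F) * t⁻¹ - x ∈ ordGe v (-D v) := by
  have h1 : (y : F) - x * t ∈ ordGe v 1 := by
    have : residueLin v (y - ⟨x * t, hx⟩) = 0 := by rw [map_sub, h, sub_self]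
    simpa using (residueLin_eq_zero_iff v).mp this
  have h2 := mul_mem_ordGe v h1 (mem_ordGe_of_le v (by rw [v.ord_inv, ht] : -(D v + 1) ≤ v.ord t⁻¹))
  rw [sub_mul, mul_assoc, mul_inv_cancel₀ ht0, mul_one] at h2
  exact ordGe_anti v (by omega) h2

omit [IsFunctionField K F] in
/-- The kernel of `resMap` is `L(D)`. -/
private theorem ker_resMap {D : Divisor K F} {v : Place K F} {t : F} (ht0 : t ≠ 0)
    (ht : v.ord t = D v + 1) :
    LinearMap.ker (resMap D v ht) =
      (riemannRochSpace D).comap (riemannRochSpace (D + Finsupp.single v 1)).subtype := by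
  ext f
  rw [LinearMap.mem_ker, Submodule.mem_comap, Submodule.coe_subtype, mem_riemannRochSpace']
  constructor
  · intro h w
    rcases eq_or_ne w v with rfl | hw
    · simpa using neg_mem (div_sub_mem_ordGe ht0 ht (y := 0) _ ((map_zero _).trans h.symm))
    · simpa [Finsupp.single_eq_of_ne hw] using mem_riemannRochSpace'.mp f.2 w
  · intro h
    exact (residueLin_eq_zero_iff v).mpr
      (ordGe_anti v (by omega) (mul_mem_ordGe v (h v) (mem_ordGe_of_le v ht.ge)))

/-- `rank resMap = ℓ(D + v) - ℓ(D)`. -/
private theorem finrank_range_resMap {D : Divisor K F} {v : Place K F} {t : F} (ht0 : t ≠ 0)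
    (ht : v.ord t = D v + 1) :
    (Module.finrank K (LinearMap.range (resMap D v ht)) : ℤ) =
      ell K (D + Finsupp.single v 1) - ell K D := by
  have e1 := LinearMap.finrank_range_add_finrank_ker (resMap D v ht)
  rw [ker_resMap ht0 ht,
    (Submodule.comapSubtypeEquivOfLe (riemannRochSpace_mono (le_add_single D v))).finrank_eq] at e1
  unfold ell
  omega

omit [IsFunctionField K F] in
private theorem resMap_apply {D : Divisor K F} {v : Place K F} {t : F} (ht : v.ord t = D v + 1)
    (f : riemannRochSpace (D + Finsupp.single v 1)) :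
    resMap D v ht f = residueLin v ⟨(f : F) * t,
      mul_mem_ordGe_of_ord_eq ht (mem_riemannRochSpace'.mp f.2 v)⟩ := rfl

/-- A residue `r` as the class in `H¹(D)` of the repartition `s r / t` supported at `v`, for a
section `s` of the residue map. -/
private def topMap (D : Divisor K F) (v : Place K F) (t : F) (s : v.ResidueField →ₗ[K] ordGe v 0) :
    v.ResidueField →ₗ[K] H1 D :=
  (Submodule.mkQ _).comp ((singleRep v).comp
    ((LinearMap.mulRight K t⁻¹).comp ((ordGe v 0).subtype.comp s)))

omit [IsFunctionField K F] in
private theorem topMap_apply (D : Divisor K F) (v : Place K F) (t : F)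
    (s : v.ResidueField →ₗ[K] ordGe v 0) (r : v.ResidueField) :
    topMap D v t s r = Submodule.Quotient.mk (singleRep v ((s r : F) * t⁻¹)) := rfl

omit [IsFunctionField K F] in
/-- The kernel of `topMap` is the range of `resMap`. -/
private theorem ker_topMap {D : Divisor K F} {v : Place K F} {t : F} (ht0 : t ≠ 0)
    (ht : v.ord t = D v + 1) {s : v.ResidueField →ₗ[K] ordGe v 0}
    (hs' : ∀ r, residueLin v (s r) = r) :
    LinearMap.ker (topMap D v t s) = LinearMap.range (resMap D v ht) := by
  classical
  set D' := D + Finsupp.single v 1 with hD'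
  have hti : t⁻¹ ∈ ordGe v (-(D v + 1)) := mem_ordGe_of_le v (by rw [v.ord_inv, ht])
  ext r
  rw [LinearMap.mem_ker, topMap_apply, Submodule.Quotient.mk_eq_zero, LinearMap.mem_range,
    Submodule.mem_sup]
  constructor
  -- If the class vanishes, the principal part `g` lies in `L(D + v)` and has residue `r`.
  · rintro ⟨α, hα, β, hβ, hsum⟩
    obtain ⟨g, hg⟩ := mem_principalRepartitions_iff.mp hβ
    have hw : ∀ w, (α : Place K F → F) w + g = if w = v then (s r : F) * t⁻¹ else 0 :=
      fun w => by
        have := congrFun (congrArg Subtype.val hsum) w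
        simpa [hg, singleRep_apply] using this
    have hα' := mem_repartitionsOf'.mp hα
    have hgmem : g ∈ riemannRochSpace D' := mem_riemannRochSpace'.mpr fun w => by
      have h1 := hw w
      by_cases hwv : w = v
      · subst hwv
        rw [if_pos rfl] at h1
        rw [show g = (s r : F) * t⁻¹ - (α : Place K F → F) w by rw [← h1]; ring,
          hD', add_single_apply_self]
        refine sub_mem ?_ (ordGe_anti w (by omega) (hα' w))
        simpa using mul_mem_ordGe w (s r).2 hti
      · rw [if_neg hwv, add_eq_zero_iff_neg_eq] at h1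
        rw [← h1, hD', add_single_apply_ne D hwv]
        exact neg_mem (hα' w)
    refine ⟨⟨g, hgmem⟩, ?_⟩
    rw [resMap_apply, ← hs' r, ← sub_eq_zero, ← map_sub, residueLin_eq_zero_iff]
    have h1 := hw v
    rw [if_pos rfl] at h1
    have : (g * t - (s r : F)) = -((α : Place K F → F) v * t) := by
      have h2 := congrArg (· * t) h1
      simp only [add_mul, mul_assoc, inv_mul_cancel₀ ht0, mul_one] at h2
      rw [← h2]; ring
    simp only [Submodule.coe_sub]
    rw [this]
    refine neg_mem (ordGe_anti v ?_ (mul_mem_ordGe v (hα' v) (mem_ordGe_of_le v ht.ge)))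
    omega
  -- Conversely a residue from `L(D + v)` is killed by the principal repartition of that function.
  · rintro ⟨g, hg⟩
    refine ⟨singleRep v ((s r : F) * t⁻¹) - algebraMap F _ (g : F), ?_,
      algebraMap F _ (g : F), mem_principal_algebraMap _, sub_add_cancel _ _⟩
    refine mem_repartitionsOf'.mpr fun w => ?_
    show (if w = v then (s r : F) * t⁻¹ else 0) - (g : F) ∈ _
    by_cases hwv : w = v
    · subst hwv
      rw [if_pos rfl]
      exact div_sub_mem_ordGe ht0 ht _ (by rw [hs', ← hg, resMap_apply])
    · rw [if_neg hwv, zero_sub]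
      refine neg_mem ?_
      have := mem_riemannRochSpace'.mp g.2 w
      simpa [hD', Finsupp.single_eq_of_ne hwv] using this

omit [IsFunctionField K F] in
/-- The range of `topMap` is the kernel of `H¹(D) → H¹(D + v)`. -/
private theorem range_topMap {D : Divisor K F} {v : Place K F} {t : F} (ht0 : t ≠ 0)
    (ht : v.ord t = D v + 1) {s : v.ResidueField →ₗ[K] ordGe v 0}
    (hs' : ∀ r, residueLin v (s r) = r) :
    LinearMap.range (topMap D v t s) = LinearMap.ker (Submodule.factor
      (sup_le_sup_right (repartitionsOf_mono (le_add_single D v)) (principalRepartitions K F)) :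
        H1 D →ₗ[K] H1 (D + Finsupp.single v 1)) := by
  classical
  set D' := D + Finsupp.single v 1 with hD'
  have hti : t⁻¹ ∈ ordGe v (-(D v + 1)) := mem_ordGe_of_le v (by rw [v.ord_inv, ht])
  apply le_antisymm
  · rintro _ ⟨r, rfl⟩
    rw [LinearMap.mem_ker, topMap_apply]
    show Submodule.Quotient.mk _ = (0 : H1 D')
    rw [Submodule.Quotient.mk_eq_zero]
    refine Submodule.mem_sup_left (mem_repartitionsOf'.mpr fun w => ?_)
    show (if w = v then (s r : F) * t⁻¹ else 0) ∈ _
    split_ifs with h
    · subst h
      refine ordGe_anti w ?_ (mul_mem_ordGe w (s r).2 hti)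
      simp [hD']
    · exact zero_mem _
  · intro z hz
    obtain ⟨α, rfl⟩ := Submodule.Quotient.mk_surjective _ z
    rw [LinearMap.mem_ker] at hz
    change Submodule.Quotient.mk α = (0 : H1 D') at hz
    rw [Submodule.Quotient.mk_eq_zero, Submodule.mem_sup] at hz
    obtain ⟨β, hβ, γ, hγ, rfl⟩ := hz
    have hβ' := mem_repartitionsOf'.mp hβ
    have hbv : (β : Place K F → F) v * t ∈ ordGe v 0 :=
      ordGe_anti v (by simp [hD']) (mul_mem_ordGe v (hβ' v) (mem_ordGe_of_le v ht.ge))
    refine ⟨residueLin v ⟨_, hbv⟩, ?_⟩
    rw [topMap_apply, Submodule.Quotient.eq, sub_add_eq_sub_sub]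
    refine sub_mem (Submodule.mem_sup_left (mem_repartitionsOf'.mpr fun w => ?_))
      (Submodule.mem_sup_right hγ)
    show (if w = v then _ else (0 : F)) - (β : Place K F → F) w ∈ _
    by_cases hwv : w = v
    · subst hwv
      rw [if_pos rfl]
      exact div_sub_mem_ordGe ht0 ht _ (hs' _)
    · rw [if_neg hwv, zero_sub]
      refine neg_mem ?_
      have := hβ' w
      rwa [hD', add_single_apply_ne D hwv] at this

/-- Relation between `H¹(D)` and `H¹(D + v)`. -/
theorem h1_add_single (D : Divisor K F) (v : Place K F)
    [FiniteDimensional K (H1 (D + Finsupp.single v 1))] :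
    FiniteDimensional K (H1 D) ∧
      h1 K D = h1 K (D + Finsupp.single v 1) + v.deg -
        (ell K (D + Finsupp.single v 1) - ell K D) := by
  classical
  obtain ⟨t, ht0, ht⟩ := exists_ord_eq v (D v + 1)
  obtain ⟨s, hs⟩ := LinearMap.exists_rightInverse_of_surjective (residueLin v)
    (LinearMap.range_eq_top.mpr (residueLin_surjective v))
  have hs' : ∀ r, residueLin v (s r) = r := fun r => LinearMap.congr_fun hs r
  set D' := D + Finsupp.single v 1 with hD'
  let proj : H1 D →ₗ[K] H1 D' := Submodule.factor
    (sup_le_sup_right (repartitionsOf_mono (le_add_single D v)) _)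
  let ψ : v.ResidueField →ₗ[K] H1 D := topMap D v t s
  have hker : LinearMap.ker ψ = LinearMap.range (resMap D v ht) := ker_topMap ht0 ht hs'
  have hrange : LinearMap.range ψ = LinearMap.ker proj := range_topMap ht0 ht hs'
  have hsurj : Function.Surjective proj := Submodule.factor_surjective _
  have := finite_residueField v
  have hkfin : FiniteDimensional K (LinearMap.ker proj) := hrange ▸ inferInstance
  have hfin : FiniteDimensional K (H1 D) := by
    rw [FiniteDimensional, Module.finite_def]
    refine Submodule.fg_of_fg_map_of_fg_inf_ker proj ?_ ?_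
    · exact IsNoetherian.noetherian _
    · rw [top_inf_eq]; exact (Submodule.fg_iff_finiteDimensional _).mpr hkfin
  refine ⟨hfin, ?_⟩
  have e1 := LinearMap.finrank_range_add_finrank_ker ψ
  have e2 : (Module.finrank K (LinearMap.range (resMap D v ht)) : ℤ) = ell K D' - ell K D :=
    finrank_range_resMap ht0 ht
  have e3 := LinearMap.finrank_range_add_finrank_ker proj
  rw [LinearMap.range_eq_top.mpr hsurj, finrank_top] at e3
  rw [hker, hrange] at e1
  unfold h1 ell Place.deg
  unfold ell at e2
  omega

/-- If `γ` does not grow from `E` to `E + v`, a repartition bounded by `E + v` is a function plus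
one bounded by `E`. -/
private theorem exists_sub_mem_of_gam_eq {E : Divisor K F} {v : Place K F}
    (hg : gam K (E + Finsupp.single v 1) = gam K E) {α : repartitions K F}
    (hα : α ∈ repartitionsOf (E + Finsupp.single v 1)) :
    ∃ f : F, α - algebraMap F _ f ∈ repartitionsOf E := by
  classical
  obtain ⟨t, ht0, ht⟩ := exists_ord_eq v (E v + 1)
  have := finite_residueField v
  have hφ : Function.Surjective (resMap E v ht) := by
    rw [← LinearMap.range_eq_top]
    apply Submodule.eq_top_of_finrank_eq
    have e1 := finrank_range_resMap ht0 ht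
    have e4 : Divisor.degree (E + Finsupp.single v 1) = Divisor.degree E + v.deg := by
      rw [map_add, Divisor.degree_single, one_mul]
    simp only [gam, ell] at hg e1
    unfold Place.deg at e4
    omega
  have hα' := mem_repartitionsOf'.mp hα
  obtain ⟨f, hf⟩ := hφ (residueLin v ⟨_, mul_mem_ordGe_of_ord_eq ht (hα' v)⟩)
  refine ⟨f, mem_repartitionsOf'.mpr fun w => ?_⟩
  show (α : Place K F → F) w - (f : F) ∈ _
  rcases eq_or_ne w v with rfl | hw
  · have h2 := div_sub_mem_ordGe ht0 ht (x := (f : F))
      (y := ⟨_, mul_mem_ordGe_of_ord_eq ht (hα' w)⟩) _ hf.symm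
    rwa [mul_assoc, mul_inv_cancel₀ ht0, mul_one] at h2
  · have h1 := hα' w
    have h2 := mem_riemannRochSpace'.mp f.2 w
    rw [add_single_apply_ne E hw] at h1 h2
    exact sub_mem h1 h2

theorem subsingleton_H1_of_max {D₀ : Divisor K F} (h : ∀ D : Divisor K F, gam K D ≤ gam K D₀) :
    Subsingleton (H1 D₀) := by
  classical
  -- Every repartition lies in some `repartitionsOf E` with `D₀ ≤ E`. By maximality `gam` does
  -- not grow between, so `E` can be lowered a place at a time modulo principal repartitions.
  suffices key : ∀ k : ℕ, ∀ E : Divisor K F, D₀ ≤ E →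
      (∑ v ∈ (E - D₀ : Divisor K F).support, (E - D₀ : Divisor K F) v) ≤ (k : ℤ) →
      repartitionsOf E ≤ repartitionsOf D₀ ⊔ principalRepartitions K F by
    refine Submodule.Quotient.subsingleton_iff.mpr (eq_top_iff.mpr ?_)
    intro α _
    let P : Divisor K F := Finsupp.onFinset
      ((mem_repartitions_iff.mp α.2).toFinset ∪ D₀.support)
      (fun v => max (D₀ v) (-v.ord ((α : Place K F → F) v)))
      (fun v hv => by
        by_contra hc
        simp only [Finset.mem_union, Set.Finite.mem_toFinset, Set.mem_ofPred_eq,
          Finsupp.mem_support_iff, not_or, not_not, not_lt] at hc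
        exact hv (by rw [hc.2]; omega))
    refine key _ P (Finsupp.le_def.mpr fun v => le_max_left _ _) (Int.self_le_toNat _) ?_
    exact mem_repartitionsOf'.mpr fun v => mem_ordGe_of_le v (by
      simp only [P, Finsupp.onFinset_apply]; omega)
  intro k
  induction k with
  | zero =>
    intro E hE hsum
    have : E = D₀ := by
      rw [← sub_eq_zero]
      ext v
      by_contra hv
      have h0 : ∀ w, 0 ≤ (E - D₀) w := fun w => Finsupp.le_def.mp (sub_nonneg.mpr hE) w
      have := Finset.single_le_sum (fun w _ => h0 w) (Finsupp.mem_support_iff.mpr hv)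
      have h1 : (0 : ℤ) < (E - D₀) v := lt_of_le_of_ne (h0 v) (Ne.symm hv)
      omega
    rw [this]; exact le_sup_left
  | succ k ih =>
    intro E hE hsum
    by_cases hsum' : (∑ v ∈ (E - D₀).support, (E - D₀) v) ≤ k
    · exact ih E hE hsum'
    obtain ⟨v, hv⟩ : (E - D₀).support.Nonempty := by
      by_contra hne
      rw [Finset.not_nonempty_iff_eq_empty] at hne
      rw [hne, Finset.sum_empty] at hsum'
      omega
    set E' := E - Finsupp.single v 1 with hE'
    have hEE : E = E' + Finsupp.single v 1 := by rw [hE', sub_add_cancel]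
    have hv1 : 1 ≤ (E - D₀) v := by
      have := Finsupp.le_def.mp (sub_nonneg.mpr hE) v
      simp at *
      omega
    have hE'0 : D₀ ≤ E' := Finsupp.le_def.mpr fun w => by
      rcases eq_or_ne w v with rfl | hw
      · simp [hE'] at hv1 ⊢; omega
      · simpa [hE', Finsupp.single_eq_of_ne hw] using Finsupp.le_def.mp hE w
    have ih' := ih E' hE'0 ?_
    · intro α hα
      rw [hEE] at hα
      obtain ⟨f, hf⟩ := exists_sub_mem_of_gam_eq (le_antisymm ((h _).trans (gam_mono hE'0))
        (gam_mono (le_add_single E' v))) hα
      rw [← sub_add_cancel α (algebraMap F _ f)]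
      exact add_mem (ih' hf) (Submodule.mem_sup_right (mem_principal_algebraMap _))
    · have hsub : (E' - D₀).support ⊆ (E - D₀).support := fun w hw => by
        rcases eq_or_ne w v with rfl | h'
        · exact hv
        · simpa [hE', Finsupp.single_eq_of_ne h'] using hw
      rw [Finset.sum_subset hsub (fun w _ hw => Finsupp.notMem_support_iff.mp hw)]
      have : ∀ w, (E' - D₀) w = (E - D₀) w - if w = v then 1 else 0 := fun w => by
        simp [hE', Finsupp.single_apply, eq_comm]; ring
      rw [Finset.sum_congr rfl (fun w _ => this w), Finset.sum_sub_distrib, Finset.sum_ite_eq',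
        if_pos hv]
      rw [Nat.cast_succ] at hsum
      omega

/-! ### The index of speciality and Riemann's theorem -/

variable (K) in
/-- The invariant `ℓ - h¹ - deg`. -/
def chi (D : Divisor K F) : ℤ := ell K D - h1 K D - Divisor.degree D

omit [IsFunctionField K F] in
/-- Finiteness of `H¹` passes to larger divisors. -/
theorem finiteDimensional_of_le {D E : Divisor K F} (h : D ≤ E) [FiniteDimensional K (H1 D)] :
    FiniteDimensional K (H1 E) :=
  Module.Finite.of_surjective _
    (Submodule.factor_surjective (sup_le_sup_right (repartitionsOf_mono h) _))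

instance finiteDimensional_H1 (D : Divisor K F) : FiniteDimensional K (H1 D) := by
  obtain ⟨D₀, hD₀⟩ := exists_gam_max (K := K) (F := F)
  suffices h : ∀ P : Divisor K F, ∀ E, FiniteDimensional K (H1 E) →
      FiniteDimensional K (H1 (E + P)) by
    have := subsingleton_H1_of_max hD₀
    exact add_sub_cancel D₀ D ▸ h (D - D₀) D₀ inferInstance
  intro P
  induction P using Finsupp.induction with
  | zero => intro E hE; rwa [add_zero]
  | single_add v n Q hQ hn ih =>
    intro E hE
    clear hQ hn
    rw [← add_assoc]
    apply ih
    induction n with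
    | zero => rwa [Finsupp.single_zero, add_zero]
    | succ k hk =>
      have := hk
      rw [Finsupp.single_add, ← add_assoc]
      exact finiteDimensional_of_le (le_add_single _ v)
    | pred k hk =>
      have he : E + Finsupp.single v (-(k : ℤ)) =
          E + Finsupp.single v (-(k : ℤ) - 1) + Finsupp.single v 1 := by
        rw [add_assoc, ← Finsupp.single_add, sub_add_cancel]
      rw [he] at hk
      have := hk
      exact (h1_add_single _ v).1

theorem chi_add_single (D : Divisor K F) (v : Place K F) :
    chi K (D + Finsupp.single v 1) = chi K D := by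
  have := (h1_add_single D v).2
  simp only [chi, map_add, Divisor.degree_single, one_mul]
  omega

theorem chi_add (D P : Divisor K F) : chi K (D + P) = chi K D := by
  induction P using Finsupp.induction generalizing D with
  | zero => rw [add_zero]
  | single_add v n Q hQ hn ih =>
    clear hQ hn
    rw [← add_assoc, ih]
    induction n with
    | zero => rw [Finsupp.single_zero, add_zero]
    | succ k hk => rw [Finsupp.single_add, ← add_assoc, chi_add_single]; exact hk
    | pred k hk =>
      rw [← hk, ← chi_add_single (D + Finsupp.single v (-(k : ℤ) - 1)) v, add_assoc,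
        ← Finsupp.single_add, sub_add_cancel]

/-- **Riemann-Roch** over any constant field, with `h¹` as the correction term. -/
theorem riemann_roch (D : Divisor K F) :
    ell K D - h1 K D = Divisor.degree D + ell K (0 : Divisor K F) - genusFF K F := by
  have := chi_add (0 : Divisor K F) D
  rw [zero_add] at this
  simp only [chi, map_zero] at this
  rw [genusFF_eq]
  omega

/-- Riemann's inequality: `ℓ(D) ≥ deg D + ℓ(0) - g`. -/
theorem riemann_inequality (D : Divisor K F) :
    Divisor.degree D + ell K (0 : Divisor K F) - genusFF K F ≤ ell K D := by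
  have := riemann_roch D
  have : 0 ≤ h1 K D := by unfold h1; exact Int.natCast_nonneg _
  omega

theorem h1_add_div {f : F} (hf : f ≠ 0) (D : Divisor K F) : h1 K (D + div K f) = h1 K D := by
  have h1' := riemann_roch (D + div K f)
  rw [ell_add_div hf, map_add, degree_div, add_zero] at h1'
  have := riemann_roch D
  omega

/-! ### Over an algebraically closed field -/

omit [IsFunctionField K F] in
/-- Constants lie in `L(D)` for effective `D`. -/
theorem algebraMap_mem_riemannRochSpace {D : Divisor K F} (hD : 0 ≤ D) (a : K) :
    algebraMap K F a ∈ riemannRochSpace D := mem_riemannRochSpace'.mpr fun v =>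
  mem_ordGe_of_le v (by rw [ord_algebraMap]; exact neg_nonpos.mpr (Finsupp.le_def.mp hD v))

/-- `ℓ(0) ≥ 1`. -/
theorem one_le_ell_zero : 1 ≤ ell K (0 : Divisor K F) := by
  have : 0 < Module.finrank K (riemannRochSpace (0 : Divisor K F)) :=
    Module.finrank_pos_iff_exists_ne_zero.mpr
      ⟨⟨1, by simpa using algebraMap_mem_riemannRochSpace (le_refl (0 : Divisor K F)) 1⟩,
        fun h => one_ne_zero (congrArg Subtype.val h)⟩
  unfold ell
  omega

/-- `L(D)` vanishes for `deg D < 0`. -/
theorem ell_eq_zero_of_degree_neg {D : Divisor K F} (h : Divisor.degree D < 0) : ell K D = 0 := by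
  by_contra hne
  have hpos : 0 < ell K D := by
    have : 0 ≤ ell K D := by unfold ell; exact Int.natCast_nonneg _
    omega
  obtain ⟨f, hf, hf'⟩ := exists_ne_zero_of_ell_pos hpos
  have := degree_nonneg hf'
  rw [map_add, degree_div, add_zero] at this
  omega

/-- `H¹` has dimension `0` in all sufficiently large degrees. -/
theorem exists_h1_eq_zero :
    ∃ c : ℤ, ∀ D : Divisor K F, c ≤ Divisor.degree D → h1 K D = 0 := by
  obtain ⟨D₀, hD₀⟩ := exists_gam_max (K := K) (F := F)
  have hs := subsingleton_H1_of_max hD₀
  refine ⟨Divisor.degree D₀ + genusFF K F, fun D hD => ?_⟩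
  have h1' := riemann_inequality (D - D₀)
  have := one_le_ell_zero (K := K) (F := F)
  rw [map_sub] at h1'
  obtain ⟨f, hf, hf'⟩ := exists_ne_zero_of_ell_pos (D := D - D₀) (by omega)
  have hle : D₀ ≤ D + div K f := sub_nonneg.mp (by
    have : D + div K f - D₀ = D - D₀ + div K f := by abel
    rw [this]; exact hf')
  rw [← h1_add_div hf D]
  have : Subsingleton (H1 (D + div K f)) :=
    (Submodule.factor_surjective (sup_le_sup_right (repartitionsOf_mono hle) _)).subsingleton
  unfold h1
  rw [Module.finrank_zero_of_subsingleton]
  rfl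

/-- Over an algebraically closed constant field, a function without poles is constant. -/
theorem eq_algebraMap_of_ord_nonneg [IsAlgClosed K] {f : F} (h : ∀ v : Place K F, 0 ≤ v.ord f) :
    ∃ a : K, f = algebraMap K F a := by
  by_cases hf : IsAlgebraic K f
  · have : FiniteDimensional K K⟮f⟯ := IntermediateField.adjoin.finiteDimensional hf.isIntegral
    have hb := IntermediateField.eq_bot_of_isAlgClosed_of_isAlgebraic K⟮f⟯
    obtain ⟨a, ha⟩ := IntermediateField.mem_bot.mp (hb ▸ mem_adjoin_simple_self K f)
    exact ⟨a, ha.symm⟩
  · obtain ⟨v, hv⟩ := exists_ord_neg_of_transcendental (K := K) hf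
    exact absurd (h v) (by omega)

/-- Over an algebraically closed field all places have degree `1`. -/
theorem deg_eq_one [IsAlgClosed K] (v : Place K F) : v.deg = 1 := by
  have := finite_residueField v
  exact v.deg_eq_one_of_isAlgClosed_of_finite

/-- Over an algebraically closed field `n • v` has degree `n`. -/
theorem degree_single_one [IsAlgClosed K] (v : Place K F) (n : ℤ) :
    Divisor.degree (Finsupp.single v n) = n := by
  rw [Divisor.degree_single, deg_eq_one v, Nat.cast_one, mul_one]

/-- Over an algebraically closed field `ℓ(0) = 1`. -/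
theorem ell_zero [IsAlgClosed K] : ell K (0 : Divisor K F) = 1 := by
  refine le_antisymm ?_ one_le_ell_zero
  have : Module.finrank K (riemannRochSpace (0 : Divisor K F)) ≤ 1 := by
    refine finrank_le_one ⟨1, by
      simpa using algebraMap_mem_riemannRochSpace (le_refl (0 : Divisor K F)) 1⟩ fun f => ?_
    obtain ⟨a, ha⟩ := eq_algebraMap_of_ord_nonneg (f := (f : F)) fun v => by
      rcases eq_or_ne (f : F) 0 with h | h
      · simp [h]
      · exact le_ord_of_mem_ordGe v h (by simpa using mem_riemannRochSpace'.mp f.2 v)
    exact ⟨a, Subtype.ext (by simp [ha, Algebra.smul_def])⟩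
  unfold ell
  omega

/-- **Riemann-Roch** `ℓ(D) - h¹(D) = deg D + 1 - g` over an algebraically closed field. -/
theorem riemann_roch_isAlgClosed [IsAlgClosed K] (D : Divisor K F) :
    ell K D - h1 K D = Divisor.degree D + 1 - genusFF K F := by
  rw [riemann_roch D, ell_zero]

/-- Over an algebraically closed field `ℓ(D) = deg D + 1 - g` in sufficiently large degree. -/
theorem exists_ell_eq [IsAlgClosed K] : ∃ c : ℤ, ∀ D : Divisor K F, c ≤ Divisor.degree D →
    ell K D = Divisor.degree D + 1 - genusFF K F := by
  obtain ⟨c, hc⟩ := exists_h1_eq_zero (K := K) (F := F)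
  refine ⟨c, fun D hD => ?_⟩
  have := riemann_roch_isAlgClosed D
  rw [hc D hD] at this
  omega

end Fermat.Agent.FF
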