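import Fermat.Agent.FF.Basic
import Mathlib.FieldTheory.IntermediateField.Adjoin.Algebra
import Mathlib.RingTheory.AlgebraicIndependent.TranscendenceBasis
import Mathlib.RingTheory.AlgebraicIndependent.AlgebraicClosure
import Mathlib.RingTheory.Valuation.LocalSubring

/-!
# Function fields in one variable: proper valuation subrings over the base field are places

These are `placeOfValuationSubring`, with existence in `exists_place_of_ideal`.
-/

set_option autoImplicit false

noncomputable section

open AlgebraicCurve Polynomial IntermediateField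

namespace Fermat.Agent.FF

/-! ### Function fields -/

/-- `F/K` is a function field in one variable. -/
class IsFunctionField (K F : Type*) [Field K] [Field F] [Algebra K F] : Prop where
  exists_finite : ∃ x : F, Transcendental K x ∧ FiniteDimensional K⟮x⟯ F

variable {K F : Type*} [Field K] [Field F] [Algebra K F]

/-- A nonzero polynomial does not vanish at a transcendental element. -/
theorem aeval_ne_zero {x : F} (hx : Transcendental K x) {p : K[X]} (hp : p ≠ 0) :
    aeval x p ≠ 0 := fun h => hp (transcendental_iff.mp hx p h)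

/-- A function field is essentially of finite type over `K`. -/
theorem essFiniteType [h : IsFunctionField K F] : Algebra.EssFiniteType K F := by
  obtain ⟨x, -, hfin⟩ := h.exists_finite
  have : Algebra.EssFiniteType K K⟮x⟯ :=
    IntermediateField.essFiniteType_iff.mpr (fg_adjoin_of_finite (Set.finite_singleton x))
  exact Algebra.EssFiniteType.comp K K⟮x⟯ F

/-- If `x` is transcendental and `F` is algebraic over `K(x)`, then so it is over `K(y)` for
every transcendental `y`. -/
theorem isAlgebraic_exchange {x y : F} (hx : Transcendental K x) (hy : Transcendental K y)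
    [Algebra.IsAlgebraic K⟮x⟯ F] : Algebra.IsAlgebraic K⟮y⟯ F := by
  have hxb : IsTranscendenceBasis K (fun _ : Unit => x) := by
    refine isTranscendenceBasis_iff_algebraicIndependent_isAlgebraic.mpr
      ⟨algebraicIndependent_unique_type_iff.mpr hx, ?_⟩
    rw [Set.range_const]
    have : Algebra.IsAlgebraic K⟮x⟯ F := ‹_›
    exact (IntermediateField.isAlgebraic_adjoin_iff_top (F := K) (E := F) (S := F)).mp this
  have hcard := hxb.lift_cardinalMk_eq_trdeg
  obtain ⟨s, hs, hsb⟩ := exists_isTranscendenceBasis_superset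
    (R := K) (A := F) (s := {y})
    ((algebraicIndependent_unique_type_iff (R := K)
      (x := fun i : ({y} : Set F) => (i : F))).mpr hy)
  have hcard' := hsb.lift_cardinalMk_eq_trdeg
  simp only [Cardinal.mk_fintype, Fintype.card_unit, Nat.cast_one, Cardinal.lift_one] at hcard
  have hone : Cardinal.mk s = 1 := by
    rw [Cardinal.lift_uzero] at hcard
    rw [Cardinal.lift_id, Cardinal.lift_id, ← hcard] at hcard'
    exact hcard'
  have hsy : s = {y} := by
    refine (Set.eq_singleton_iff_unique_mem).mpr ⟨hs rfl, fun z hz => ?_⟩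
    obtain ⟨hsub, -⟩ := Cardinal.eq_one_iff_unique.mp hone
    exact congrArg Subtype.val (@Subsingleton.elim _ hsub ⟨z, hz⟩ ⟨y, hs rfl⟩)
  subst hsy
  have := hsb.isAlgebraic_field
  rwa [Subtype.range_coe] at this

/-- A function field is finite over `K(y)` for every transcendental `y`. -/
theorem finiteDimensional_adjoin [h : IsFunctionField K F] {y : F} (hy : Transcendental K y) :
    FiniteDimensional K⟮y⟯ F := by
  obtain ⟨x, hx, hfin⟩ := h.exists_finite
  have := isAlgebraic_exchange hx hy
  have := essFiniteType (K := K) (F := F)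
  have : Algebra.EssFiniteType K⟮y⟯ F := Algebra.EssFiniteType.of_comp K K⟮y⟯ F
  exact Algebra.finite_of_essFiniteType_of_isAlgebraic

/-- A field finite over a purely transcendental `K(x)` is a function field. -/
theorem isFunctionField_of_finite {x : F} (hx : Transcendental K x)
    [FiniteDimensional K⟮x⟯ F] : IsFunctionField K F := ⟨⟨x, hx, inferInstance⟩⟩

/-- Linear independence over `K(x)` from relations with polynomial coefficients. -/
theorem linearIndependent_adjoin {x : F} (hx : Transcendental K x) {ι : Type*} [Fintype ι]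
    {u : ι → F}
    (h : ∀ p : ι → K[X], ∑ i, aeval x (p i) * u i = 0 → ∀ i, (p i).coeff 0 = 0) :
    LinearIndependent K⟮x⟯ u := by
  classical
  have hp : ∀ p : ι → K[X], ∑ i, aeval x (p i) * u i = 0 → p = 0 := by
    intro p hp
    -- By induction on `k` the `k`-th coefficients of a relation vanish: divide it by `x`.
    have key : ∀ k : ℕ, ∀ p : ι → K[X], ∑ i, aeval x (p i) * u i = 0 →
        ∀ i, (p i).coeff k = 0 := by
      intro k
      induction k with
      | zero => exact h
      | succ k ih =>
        intro p hp i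
        have h0 := h p hp
        have hdiv : ∀ i, p i = X * (p i).divX := fun i => by
          conv_lhs => rw [← X_mul_divX_add (p i), h0 i, C_0, add_zero]
        have hx0 : x ≠ 0 := fun hh => hx (hh ▸ isAlgebraic_zero)
        have h2 : x * ∑ i, aeval x (p i).divX * u i = 0 := by
          rw [Finset.mul_sum, ← hp]
          refine Finset.sum_congr rfl fun i _ => ?_
          conv_rhs => rw [hdiv i, map_mul, aeval_X]
          ring
        have h3 := ih _ ((mul_eq_zero.mp h2).resolve_left hx0) i
        rwa [coeff_divX] at h3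
    exact funext fun i => Polynomial.ext fun k => by simpa using key k p hp i
  rw [Fintype.linearIndependent_iff]
  intro g hg i
  -- Clear the denominators of a relation over `K(x)`.
  choose r s hrs using fun i => mem_adjoin_simple_iff (F := K) (g i : F) |>.mp (g i).2
  have hrs' : ∀ i, ∃ r' s' : K[X], s' ≠ 0 ∧ (g i : F) = aeval x r' / aeval x s' := fun i => by
    by_cases hs : s i = 0
    · exact ⟨0, 1, one_ne_zero, by simp [hrs i, hs]⟩
    · exact ⟨r i, s i, hs, hrs i⟩
  choose r' s' hs' hg' using hrs'
  have hsum : ∑ j, aeval x (r' j * ∏ k ∈ Finset.univ.erase j, s' k) * u j = 0 := by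
    have h4 : ∑ j, (g j : F) * u j = 0 := by simpa [IntermediateField.smul_def] using hg
    have : ∀ j, aeval x (r' j * ∏ k ∈ Finset.univ.erase j, s' k) * u j
        = aeval x (∏ k, s' k) * ((g j : F) * u j) := fun j => by
      rw [hg' j, ← Finset.mul_prod_erase Finset.univ s' (Finset.mem_univ j), map_mul, map_mul]
      field_simp [aeval_ne_zero hx (hs' j)]
    rw [Finset.sum_congr rfl fun j _ => this j, ← Finset.mul_sum, h4, mul_zero]
  have h5 := congrFun (hp _ hsum) i
  have h6 : r' i = 0 := by
    simpa [Finset.prod_eq_zero_iff, hs'] using h5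
  exact Subtype.ext (by simp [hg' i, h6])

/-! ### Valuation subrings -/

section ValuationSubring

variable (A : ValuationSubring F)

theorem valuation_algebraMap (hA : ∀ a : K, algebraMap K F a ∈ A) {a : K} (ha : a ≠ 0) :
    A.valuation (algebraMap K F a) = 1 := by
  have hu : IsUnit (⟨_, hA a⟩ : A) := IsUnit.of_mul_eq_one ⟨_, hA a⁻¹⟩
    (Subtype.ext (by simp [ha]))
  exact (A.valuation_eq_one_iff _).mp hu

theorem valuation_aeval_le_one (hA : ∀ a : K, algebraMap K F a ∈ A) {x : F} (hx : x ∈ A)
    (p : K[X]) : A.valuation (aeval x p) ≤ 1 := by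
  rw [A.valuation_le_one_iff, aeval_eq_sum_range]
  exact sum_mem fun i _ => by
    rw [Algebra.smul_def]
    exact mul_mem (hA _) (pow_mem hx _)

theorem valuation_aeval (hA : ∀ a : K, algebraMap K F a ∈ A) {x : F}
    (hx : A.valuation x < 1) {p : K[X]} (hp : p.coeff 0 ≠ 0) :
    A.valuation (aeval x p) = 1 := by
  have hxA : x ∈ A := A.mem_of_valuation_le_one x hx.le
  rw [← X_mul_divX_add p, map_add, map_mul, aeval_X, aeval_C,
    Valuation.map_add_eq_of_lt_right, valuation_algebraMap A hA hp]
  rw [valuation_algebraMap A hA hp, map_mul]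
  exact mul_lt_one_of_nonneg_of_lt_one_left zero_le hx (valuation_aeval_le_one A hA hxA _)

theorem transcendental_of_valuation_lt_one (hA : ∀ a : K, algebraMap K F a ∈ A) {x : F}
    (hx : A.valuation x < 1) (hx0 : x ≠ 0) : Transcendental K x := by
  rw [transcendental_iff]
  intro p hp
  by_contra hp0
  obtain ⟨q, hq, hq'⟩ := exists_eq_pow_rootMultiplicity_mul_and_not_dvd p hp0 (0 : K)
  rw [C_0, sub_zero] at hq hq'
  rw [X_dvd_iff] at hq'
  rw [hq, map_mul, map_pow, aeval_X] at hp
  have := valuation_aeval A hA hx hq'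
  rw [(mul_eq_zero.mp hp).resolve_left (pow_ne_zero _ hx0)] at this
  simp at this

/-- Finitely many valuations lie in `(v x, 1]`. -/
theorem card_le_of_valuation_mem (hA : ∀ a : K, algebraMap K F a ∈ A) {x : F}
    (hx : A.valuation x < 1) (hx0 : x ≠ 0) [FiniteDimensional K⟮x⟯ F] (S : Finset F)
    (hS : ∀ y ∈ S, A.valuation x < A.valuation y ∧ A.valuation y ≤ 1)
    (hinj : Set.InjOn A.valuation S) : S.card ≤ Module.finrank K⟮x⟯ F := by
  classical
  have hli : LinearIndependent K⟮x⟯ (fun i : S => (i : F)) := by
    refine linearIndependent_adjoin (transcendental_of_valuation_lt_one A hA hx hx0) ?_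
    intro p hp i
    by_contra hi
    obtain ⟨j, hj, hjmax⟩ := Finset.exists_max_image
      (Finset.univ.filter fun j : S => (p j).coeff 0 ≠ 0)
      (fun j => A.valuation (j : F)) ⟨i, by simp [hi]⟩
    simp only [Finset.mem_filter, Finset.mem_univ, true_and] at hj hjmax
    have hjpos : A.valuation (j : F) ≠ 0 := ((hS _ j.2).1.trans_le' zero_le).ne'
    have := Valuation.map_sum_eq_of_lt A.valuation (s := Finset.univ)
      (f := fun k : S => aeval x (p k) * (k : F)) (Finset.mem_univ j) ?_
    · rw [hp, map_zero, map_mul, valuation_aeval A hA hx hj, one_mul] at this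
      exact hjpos this.symm
    intro k hk
    have hkj : k ≠ j := by simpa using hk
    rw [map_mul, map_mul, valuation_aeval A hA hx hj, one_mul]
    by_cases hk0 : (p k).coeff 0 = 0
    · have hxA : x ∈ A := A.mem_of_valuation_le_one x hx.le
      rw [← X_mul_divX_add (p k), hk0, C_0, add_zero, map_mul, aeval_X, map_mul, mul_assoc]
      calc A.valuation x * (A.valuation (aeval x (p k).divX) * A.valuation (k : F))
          ≤ A.valuation x * 1 := by
            exact mul_le_mul' le_rfl (mul_le_one' (valuation_aeval_le_one A hA hxA _) (hS _ k.2).2)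
        _ < A.valuation (j : F) := by rw [mul_one]; exact (hS _ j.2).1
    · rw [valuation_aeval A hA hx hk0, one_mul]
      exact lt_of_le_of_ne (hjmax k hk0) fun h => hkj (Subtype.ext (hinj k.2 j.2 h))
  simpa using hli.fintype_card_le_finrank

theorem isPrincipalIdealRing_of_valuationSubring [IsFunctionField K F]
    (hA : ∀ a : K, algebraMap K F a ∈ A) (hne : A ≠ ⊤) : IsPrincipalIdealRing A := by
  classical
  -- By the degree bound only finitely many values lie between that of `z` and `1`.
  have key : ∀ z : F, A.valuation z < 1 → z ≠ 0 →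
      ∃ V : Finset A.ValueGroup, ∀ w : F, A.valuation z < A.valuation w → A.valuation w ≤ 1 →
        A.valuation w ∈ V := by
    intro z hz hz0
    have := finiteDimensional_adjoin (transcendental_of_valuation_lt_one A hA hz hz0)
    have hsf : {g : A.ValueGroup | A.valuation z < g ∧ g ≤ 1}.Finite := by
      by_contra hinf
      obtain ⟨T, hT, hTcard⟩ := Set.Infinite.exists_subset_card_eq hinf
        (Module.finrank K⟮z⟯ F + 1)
      choose pre hpre using A.valuation_surjective
      have := card_le_of_valuation_mem A hA hz hz0 (T.image pre) (fun y hy => by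
        obtain ⟨g, hg, rfl⟩ := Finset.mem_image.mp hy
        rw [hpre]; exact hT hg) (fun a ha b hb hab => by
        obtain ⟨g, -, rfl⟩ := Finset.mem_image.mp ha
        obtain ⟨g', -, rfl⟩ := Finset.mem_image.mp hb
        rw [hpre, hpre] at hab
        rw [hab])
      rw [Finset.card_image_of_injective _ (Function.LeftInverse.injective hpre)] at this
      omega
    exact ⟨hsf.toFinset, fun w h1 h2 => hsf.mem_toFinset.mpr ⟨h1, h2⟩⟩
  obtain ⟨z, hz⟩ : ∃ z : F, z ∉ A := by
    by_contra! h
    exact hne (SetLike.ext fun y => ⟨fun _ => ValuationSubring.mem_top y, fun _ => h y⟩)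
  have hz0 : z ≠ 0 := fun h => hz (h ▸ A.zero_mem)
  have hzi : A.valuation z⁻¹ < 1 :=
    A.mem_nonunits_iff.mp (A.inv_mem_nonunits_iff.mpr (Or.inr hz))
  -- So there is a greatest value `g < 1`, every value `≤ 1` is a power of it, and an element of
  -- least exponent generates an ideal.
  obtain ⟨V, hV⟩ := key z⁻¹ hzi (inv_ne_zero hz0)
  obtain ⟨g, hg, hgmax⟩ := Finset.exists_max_image
    (insert (A.valuation z⁻¹) (V.filter (· < 1))) id ⟨_, Finset.mem_insert_self _ _⟩
  have hg1 : g < 1 := by
    rcases Finset.mem_insert.mp hg with rfl | h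
    · exact hzi
    · exact (Finset.mem_filter.mp h).2
  have hgz : A.valuation z⁻¹ ≤ g := hgmax _ (Finset.mem_insert_self _ _)
  obtain ⟨π, hπv⟩ := A.valuation_surjective g
  have hπmax : ∀ w : F, A.valuation w < 1 → A.valuation w ≤ g := fun w hw => by
    by_contra! h
    exact h.not_ge (hgmax _ (Finset.mem_insert_of_mem
      (Finset.mem_filter.mpr ⟨hV w (hgz.trans_lt h) hw.le, hw⟩)))
  have hg0 : g ≠ 0 := fun h => by
    rw [h] at hgz
    exact (A.valuation.ne_zero_iff.mpr (inv_ne_zero hz0)) (le_zero_iff.mp hgz)
  have hpow : ∀ w : F, w ≠ 0 → A.valuation w ≤ 1 → ∃ k : ℕ, A.valuation w = g ^ k := by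
    intro w hw0 hw1
    rcases hw1.lt_or_eq with hlt | heq
    · obtain ⟨W, hW⟩ := key w hlt hw0
      have hex : ∃ k : ℕ, g ^ (k + 1) ≤ A.valuation w := by
        by_contra! h
        have hinj : Function.Injective (fun k : ℕ => g ^ (k + 1)) := fun a b hab => by
          simpa using (pow_right_strictAnti₀ (pos_iff_ne_zero.mpr hg0) hg1).injective hab
        exact (Set.infinite_range_of_injective hinj) (W.finite_toSet.subset (by
          rintro _ ⟨k, rfl⟩
          have h1 : A.valuation (π ^ (k + 1)) = g ^ (k + 1) := by rw [map_pow, hπv]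
          show g ^ (k + 1) ∈ W
          rw [← h1]
          exact hW _ (h1 ▸ h k) (h1 ▸ pow_le_one₀ zero_le hg1.le)))
      refine ⟨Nat.find hex + 1, le_antisymm ?_ (Nat.find_spec hex)⟩
      have hlow : A.valuation w < g ^ Nat.find hex ∨ Nat.find hex = 0 := by
        rcases Nat.eq_zero_or_pos (Nat.find hex) with h | h
        · exact Or.inr h
        · left
          have := Nat.find_min hex (Nat.sub_lt h one_pos)
          rw [not_le, show Nat.find hex - 1 + 1 = Nat.find hex by omega] at this
          exact this
      rcases hlow with h | h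
      · have h2 : A.valuation (w / π ^ Nat.find hex) < 1 := by
          rw [map_div₀, map_pow, hπv, div_lt_one₀ (pow_pos (pos_iff_ne_zero.mpr hg0) _)]
          exact h
        have h3 := hπmax _ h2
        rw [map_div₀, map_pow, hπv, div_le_iff₀ (pow_pos (pos_iff_ne_zero.mpr hg0) _)] at h3
        rwa [pow_succ']
      · rw [h, zero_add, pow_one]
        exact hπmax w hlt
    · exact ⟨0, by simp [heq]⟩
  refine ⟨fun I => ?_⟩
  by_cases hI : I = ⊥
  · exact ⟨⟨0, by simp [hI]⟩⟩
  obtain ⟨a, ha, ha0⟩ := Submodule.exists_mem_ne_zero_of_ne_bot hI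
  have hex : ∃ k : ℕ, ∃ b ∈ I, A.valuation (b : F) = g ^ k := by
    obtain ⟨k, hk⟩ := hpow (a : F) (by simpa using ha0) (A.valuation_le_one a)
    exact ⟨k, a, ha, hk⟩
  obtain ⟨b, hb, hbv⟩ := Nat.find_spec hex
  refine ⟨⟨b, le_antisymm (fun c hc => ?_) ((Ideal.span_singleton_le_iff_mem _).mpr hb)⟩⟩
  rw [Ideal.submodule_span_eq, Ideal.mem_span_singleton]
  rcases eq_or_ne c 0 with rfl | hc0
  · exact dvd_zero _
  obtain ⟨k, hk⟩ := hpow (c : F) (by simpa using hc0) (A.valuation_le_one c)
  have hle : A.valuation (c : F) ≤ A.valuation (b : F) := by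
    rw [hk, hbv]
    exact pow_le_pow_of_le_one zero_le hg1.le (Nat.find_min' hex ⟨c, hc, hk⟩)
  obtain ⟨d, hd⟩ := (A.valuation_le_iff _ _).mp hle
  exact ⟨d, Subtype.ext (by rw [mul_comm]; exact hd.symm)⟩

/-- A nontrivial valuation subring containing the constants, as a place. -/
def placeOfValuationSubring [IsFunctionField K F] (hA : ∀ a : K, algebraMap K F a ∈ A)
    (hne : A ≠ ⊤) : Place K F :=
  ⟨A, hA, hne, isPrincipalIdealRing_of_valuationSubring A hA hne⟩

end ValuationSubring

/-! ### Existence of places -/

/-- Existence of places: a proper nonzero ideal of a subalgebra is centred at some place. -/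
theorem exists_place_of_ideal [IsFunctionField K F] (R : Subalgebra K F) (I : Ideal R)
    (hI : I ≠ ⊤) (hI0 : I ≠ ⊥) :
    ∃ v : Place K F, (∀ r ∈ R, r ∈ v.toValuationSubring) ∧
      ∀ r ∈ I, (r : F) ∈ ordGe v 1 := by
  obtain ⟨B, hRB, hB⟩ := Ideal.image_subset_nonunits_valuationSubring
    (A := R.toSubring) I hI
  have hK : ∀ a : K, algebraMap K F a ∈ B := fun a => hRB (R.algebraMap_mem a)
  have hne : B ≠ ⊤ := by
    obtain ⟨a, ha, ha0⟩ := Submodule.exists_mem_ne_zero_of_ne_bot hI0
    intro htop
    subst htop
    have := hB ⟨a, ha, rfl⟩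
    rw [SetLike.mem_coe, ValuationSubring.mem_nonunits_iff_or] at this
    rcases this with h | h
    · exact ha0 (Subtype.ext h)
    · exact h (ValuationSubring.mem_top _)
  refine ⟨placeOfValuationSubring B hK hne, fun r hr => hRB hr, fun r hr => ?_⟩
  rw [mem_ordGe]
  rcases eq_or_ne (r : F) 0 with h | h
  · exact Or.inl h
  refine Or.inr ?_
  have h1 : (r : F) ∈ B := hRB r.2
  have h2 := hB ⟨r, hr, rfl⟩
  rw [SetLike.mem_coe, ValuationSubring.mem_nonunits_iff_or] at h2
  have h3 := h2.resolve_left h
  have h4 := mem_iff_ord (placeOfValuationSubring B hK hne) (inv_ne_zero h)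
  have h5 := (mem_iff_ord (placeOfValuationSubring B hK hne) h).mp h1
  rw [Place.ord_inv] at h4
  by_contra h6
  exact h3 (h4.mpr (by omega))

/-- A transcendental element has a pole. -/
theorem exists_ord_neg_of_transcendental [IsFunctionField K F] {x : F} (hx : Transcendental K x) :
    ∃ v : Place K F, v.ord x < 0 := by
  have hy : Transcendental K x⁻¹ := fun h => hx (IsAlgebraic.inv_iff.mp h)
  let R : Subalgebra K F := Algebra.adjoin K {x⁻¹}
  let y : R := ⟨x⁻¹, Algebra.subset_adjoin rfl⟩
  have hy0 : y ≠ 0 := fun h => hy (by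
    have := congrArg Subtype.val h
    simp only [y, ZeroMemClass.coe_zero] at this
    rw [this]; exact isAlgebraic_zero)
  obtain ⟨v, -, hv⟩ := exists_place_of_ideal R (Ideal.span {y}) (fun htop => by
    rw [Ideal.span_singleton_eq_top] at htop
    obtain ⟨⟨b, hb⟩, hyb⟩ := isUnit_iff_exists_inv.mp htop
    simp only [R] at hb
    rw [Algebra.adjoin_singleton_eq_range_aeval] at hb
    obtain ⟨p, rfl⟩ := hb
    have h0 : aeval x⁻¹ (X * p - 1) = 0 := by
      rw [map_sub, map_mul, aeval_X, map_one, sub_eq_zero]
      exact congrArg Subtype.val hyb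
    have := congrArg (Polynomial.coeff · 0) (transcendental_iff.mp hy _ h0)
    simp at this) (by simpa using hy0)
  refine ⟨v, ?_⟩
  have h1 := le_ord_of_mem_ordGe v (fun h => hy0 (Subtype.ext h) : (y : F) ≠ 0)
    (hv y (Ideal.subset_span rfl))
  rw [show (y : F) = x⁻¹ from rfl, v.ord_inv] at h1
  omega

/-- An element in all valuation rings of places containing `R` is integral over `R`. -/
theorem isIntegral_of_forall_mem [IsFunctionField K F] (R : Subalgebra K F) {f : F}
    (h : ∀ v : Place K F, (∀ r ∈ R, r ∈ v.toValuationSubring) → f ∈ v.toValuationSubring) :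
    IsIntegral R f := by
  by_contra hf
  have hinst : IsIntegrallyClosedIn (integralClosure R F).toSubring F :=
    inferInstanceAs (IsIntegrallyClosedIn (integralClosure R F) F)
  obtain ⟨V, hV, hfV⟩ := Subring.exists_le_valuationSubring_of_isIntegrallyClosedIn
    (R := (integralClosure R F).toSubring) (x := f) hf
  have hR : ∀ r ∈ R, r ∈ V := fun r hr =>
    hV ((integralClosure R F).algebraMap_mem ⟨r, hr⟩)
  have hne : V ≠ ⊤ := fun htop => hfV (htop ▸ ValuationSubring.mem_top f)
  exact hfV (h (placeOfValuationSubring V (fun a => hR _ (R.algebraMap_mem a)) hne) hR)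

end Fermat.Agent.FF
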