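import Mathlib.FieldTheory.IsAlgClosed.AlgebraicClosure
import Mathlib.FieldTheory.PrimitiveElement
import Mathlib.RingTheory.Norm.Transitivity

/-!
# The norm of an extension as a product over a given set of embeddings
-/

set_option autoImplicit false

noncomputable section

namespace Fermat.Agent.FF

/-- In characteristic zero the norm of a finite extension is the product over any family of
distinct embeddings which has as many members as the degree. -/
theorem map_norm_eq_prod {F F' Ω : Type*} [Field F] [Field F'] [Field Ω] [CharZero F]
    [Algebra F F'] [Module.Finite F F'] {ι : Type*} [Fintype ι] (base : F →+* Ω)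
    (σ : ι → F' →+* Ω) (hbase : ∀ i z, σ i (algebraMap F F' z) = base z)
    (hinj : Function.Injective σ) (hcard : Fintype.card ι = Module.finrank F F') (x : F') :
    base (Algebra.norm F x) = ∏ i, σ i x := by
  let e := algebraMap Ω (AlgebraicClosure Ω)
  let : Algebra F (AlgebraicClosure Ω) := (e.comp base).toAlgebra
  let τ : ι → (F' →ₐ[F] AlgebraicClosure Ω) := fun i =>
    { e.comp (σ i) with commutes' := fun z => congrArg e (hbase i z) }
  have hτ : Function.Bijective τ := (Fintype.bijective_iff_injective_and_card τ).mpr
    ⟨fun i j h => hinj (RingHom.ext fun y => e.injective (DFunLike.congr_fun h y)),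
      hcard.trans (AlgHom.card F F' (AlgebraicClosure Ω)).symm⟩
  refine e.injective
    ((Algebra.norm_eq_prod_embeddings F (AlgebraicClosure Ω) x).trans ?_)
  rw [map_prod]
  exact (Fintype.prod_bijective τ hτ _ _ fun _ => rfl).symm

end Fermat.Agent.FF

end
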