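import Fermat.Agent.FF.Basic

/-!
# Weak approximation for finitely many places
-/

set_option autoImplicit false

noncomputable section

open AlgebraicCurve

namespace Fermat.Agent.FF

variable {K F : Type*} [Field K] [Field F] [Algebra K F]

theorem exists_pos_neg {v w : Place K F} (h : v ≠ w) :
    ∃ z : F, z ≠ 0 ∧ 0 < v.ord z ∧ w.ord z < 0 := by
  have aux : ∀ {v w : Place K F}, v ≠ w → ∃ a : F, a ≠ 0 ∧ 0 ≤ v.ord a ∧ w.ord a < 0 := by
    intro v w h
    by_contra! hc
    refine h (eq_of_le fun a ha => ?_)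
    rcases eq_or_ne a 0 with rfl | ha0
    · exact zero_mem _
    exact (mem_iff_ord w ha0).mpr (hc a ha0 (ord_nonneg v ha))
  obtain ⟨a, ha0, hav, haw⟩ := aux h
  obtain ⟨b, hb0, hbw, hbv⟩ := aux h.symm
  refine ⟨a / b, div_ne_zero ha0 hb0, ?_, ?_⟩ <;> rw [ord_div _ ha0 hb0] <;> omega

theorem exists_pos_neg_finset (v : Place K F) (S : Finset (Place K F)) (hv : v ∉ S) :
    ∃ z : F, z ≠ 0 ∧ 0 < v.ord z ∧ ∀ w ∈ S, w.ord z < 0 := by
  classical
  induction S using Finset.induction_on with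
  | empty =>
    obtain ⟨t, ht, ht'⟩ := exists_uniformizer v
    exact ⟨t, ht, by omega, by simp⟩
  | @insert u S hu ih =>
    rw [Finset.mem_insert, not_or] at hv
    obtain ⟨z, hz0, hzv, hzS⟩ := ih hv.2
    obtain ⟨y, hy0, hyv, hyu⟩ := exists_pos_neg hv.1
    -- Unless `z` already has a pole at `u`, add a high power of `y`.
    by_cases hzu : u.ord z < 0
    · exact ⟨z, hz0, hzv, fun w hw => by
        rcases Finset.mem_insert.mp hw with rfl | hw
        · exact hzu
        · exact hzS w hw⟩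
    obtain ⟨m, hm⟩ : ∃ m : ℕ, 0 < m ∧ ∀ w ∈ S, w.ord y ≠ 0 → (m : ℤ) * w.ord y ≠ w.ord z := by
      refine ⟨(S.sup fun w => (w.ord z).natAbs) + 1, Nat.succ_pos _, fun w hw hwy he => ?_⟩
      have h1 : (w.ord z).natAbs ≤ S.sup fun w => (w.ord z).natAbs :=
        Finset.le_sup (f := fun w : Place K F => (w.ord z).natAbs) hw
      have h2 := congrArg Int.natAbs he
      rw [Int.natAbs_mul, Int.natAbs_natCast] at h2
      have h3 : 1 ≤ (w.ord y).natAbs := Int.natAbs_pos.mpr hwy
      have := Nat.mul_le_mul_left ((S.sup fun w => (w.ord z).natAbs) + 1) h3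
      omega
    obtain ⟨hm0, hm⟩ := hm
    have hym : y ^ m ≠ 0 := pow_ne_zero _ hy0
    -- Then `y ^ m` dominates at `u`, and never cancels against `z` at the other places.
    have hu' : z + y ^ m ≠ 0 ∧ u.ord (z + y ^ m) < 0 := by
      have hlt : u.ord (y ^ m) < u.ord z := by
        rw [ord_pow]
        have : (m : ℤ) * u.ord y < 0 := mul_neg_of_pos_of_neg (by exact_mod_cast hm0) hyu
        omega
      obtain ⟨h1, h2⟩ := ord_add_eq_left u hym (Or.inr hlt)
      rw [add_comm] at h1 h2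
      refine ⟨h1, h2 ▸ ?_⟩
      rw [ord_pow]
      exact mul_neg_of_pos_of_neg (by exact_mod_cast hm0) hyu
    refine ⟨z + y ^ m, hu'.1, ?_, fun w hw => ?_⟩
    · refine lt_of_lt_of_le (show (0 : ℤ) < 1 by norm_num) (le_ord_add v hu'.1 (by omega) ?_)
      rw [ord_pow]
      exact one_le_mul_of_one_le_of_one_le (by exact_mod_cast hm0) (by omega)
    · rcases Finset.mem_insert.mp hw with rfl | hw
      · exact hu'.2
      have hz := hzS w hw
      have hne : w.ord z ≠ w.ord (y ^ m) := by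
        rw [ord_pow]
        by_cases hy : w.ord y = 0
        · rw [hy, mul_zero]; omega
        · exact (hm w hw hy).symm
      rw [(ord_add_eq_of_ne w hz0 hym hne).2]
      omega

/-- An element close to `1` at `v` and to `0` at the other places of `S`. -/
theorem exists_idem (v : Place K F) (S : Finset (Place K F)) (hv : v ∉ S) (N : ℕ) :
    ∃ e : F, e - 1 ∈ ordGe v N ∧ ∀ w ∈ S, e ∈ ordGe w N := by
  obtain ⟨z, hz0, hzv, hzS⟩ := exists_pos_neg_finset v S hv
  have hN : 0 < N + 1 := Nat.succ_pos N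
  have h1 : (0 : ℤ) < ((N + 1 : ℕ) : ℤ) * v.ord z := mul_pos (by exact_mod_cast hN) hzv
  obtain ⟨hd, hdv⟩ := ord_add_eq_left v (one_ne_zero (α := F)) (g := z ^ (N + 1))
    (Or.inr (by rw [ord_pow, Place.ord_one]; exact h1))
  rw [Place.ord_one] at hdv
  refine ⟨(1 + z ^ (N + 1))⁻¹, ?_, fun w hw => ?_⟩
  · have he : (1 + z ^ (N + 1))⁻¹ - 1 = -(z ^ (N + 1) / (1 + z ^ (N + 1))) := by
      field_simp
      ring
    rw [he]
    refine neg_mem (mem_ordGe_of_le v ?_)
    rw [ord_div v (pow_ne_zero _ hz0) hd, hdv, ord_pow, sub_zero]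
    calc (N : ℤ) ≤ ((N + 1 : ℕ) : ℤ) * 1 := by push_cast; omega
      _ ≤ _ := by gcongr; omega
  · have hw' := hzS w hw
    have h2 : ((N + 1 : ℕ) : ℤ) * w.ord z ≤ ((N + 1 : ℕ) : ℤ) * (-1) := by gcongr; omega
    obtain ⟨-, h4⟩ := ord_add_eq_left w (pow_ne_zero (N + 1) hz0) (g := 1)
      (Or.inr (by rw [ord_pow, Place.ord_one]; push_cast at h2 ⊢; omega))
    rw [add_comm] at h4
    refine mem_ordGe_of_le w ?_
    rw [w.ord_inv, h4, ord_pow]
    push_cast at h2 ⊢
    omega

/-- Weak approximation. -/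
theorem exists_approx (S : Finset (Place K F)) (f : Place K F → F) (n : Place K F → ℤ) :
    ∃ x : F, ∀ v ∈ S, x - f v ∈ ordGe v (n v) := by
  classical
  obtain ⟨N, hN⟩ : ∃ N : ℕ, ∀ v ∈ S, ∀ w ∈ S, n v - v.ord (f w) ≤ (N : ℤ) := by
    refine ⟨(S ×ˢ S).sup fun p => (n p.1 - p.1.ord (f p.2)).natAbs, fun v hv w hw => ?_⟩
    have h1 : (n v - v.ord (f w)).natAbs ≤ _ :=
      Finset.le_sup (f := fun p : Place K F × Place K F => (n p.1 - p.1.ord (f p.2)).natAbs)
        (Finset.mk_mem_product hv hw)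
    omega
  choose e he he' using fun v : Place K F => exists_idem v (S.erase v) (Finset.notMem_erase v S) N
  refine ⟨∑ w ∈ S, f w * e w, fun v hv => ?_⟩
  rw [← Finset.add_sum_erase _ _ hv, add_sub_right_comm, ← mul_sub_one]
  refine add_mem ?_ (sum_mem fun w hw => ?_)
  · exact ordGe_anti v (by have := hN v hv v hv; omega)
      (mul_mem_ordGe v (mem_ordGe_of_le v (le_refl (v.ord (f v)))) (he v))
  · have hwS := Finset.mem_of_mem_erase hw
    exact ordGe_anti v (by have := hN v hv w hwS; omega)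
      (mul_mem_ordGe v (mem_ordGe_of_le v (le_refl (v.ord (f w))))
        (he' w v (Finset.mem_erase.mpr ⟨(Finset.ne_of_mem_erase hw).symm, hv⟩)))

/-- At finitely many places a function can have any prescribed orders. -/
theorem exists_approx_ord (S : Finset (Place K F)) (n : Place K F → ℤ) :
    ∃ x : F, ∀ v ∈ S, x ≠ 0 ∧ v.ord x = n v := by
  choose t ht ht' using fun v : Place K F => exists_ord_eq v (n v)
  obtain ⟨x, hx⟩ := exists_approx S t (fun v => n v + 1)
  refine ⟨x, fun v hv => ?_⟩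
  have h := (mem_ordGe v).mp (hx v hv)
  obtain ⟨h1, h2⟩ := ord_add_eq_left v (ht v) (g := x - t v)
    (h.imp_right fun h => by rw [ht']; omega)
  rw [add_sub_cancel] at h1 h2
  exact ⟨h1, h2.trans (ht' v)⟩

end Fermat.Agent.FF
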