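import Fermat.Prelude.Def_AlgebraicCurve_Repartitions

/-!
# Basic API for places of an extension of fields
-/

set_option autoImplicit false

noncomputable section

open AlgebraicCurve IsLocalRing WithZero

namespace Fermat.Agent.FF

variable {K F : Type*} [Field K] [Field F] [Algebra K F] (v : Place K F)

theorem mem_iff_adicValuation_le_one {f : F} :
    f ∈ v.toValuationSubring ↔ v.adicValuation f ≤ 1 := by
  refine ⟨v.adicValuation_le_one_of_mem, fun h => ?_⟩
  rcases v.toValuationSubring.mem_or_inv_mem f with hf | hf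
  · exact hf
  · rcases eq_or_ne f 0 with rfl | h0
    · exact zero_mem _
    have h1 := v.adicValuation_le_one_of_mem hf
    have h2 : v.adicValuation f = 1 := by
      refine le_antisymm h ?_
      rwa [map_inv₀, inv_le_one₀ (pos_iff_ne_zero.mpr (v.adicValuation_ne_zero h0))] at h1
    have h3 : IsUnit (⟨f⁻¹, hf⟩ : v.toValuationSubring) := by
      rw [← v.adicValuation_coe_eq_one_iff]
      simp [h2]
    obtain ⟨b, hb⟩ := isUnit_iff_exists_inv.mp h3
    have hb' : f⁻¹ * (b : F) = 1 := congrArg Subtype.val hb
    rw [inv_mul_eq_one₀ h0] at hb'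
    exact hb' ▸ b.2

/-- An element lies in the valuation ring of `v` exactly if it is zero or of order at least `0`. -/
theorem mem_iff {f : F} : f ∈ v.toValuationSubring ↔ f = 0 ∨ 0 ≤ v.ord f := by
  rw [mem_iff_adicValuation_le_one, v.adicValuation_le_one_iff]

/-- A nonzero element lies in the valuation ring of `v` exactly if its order is at least `0`. -/
theorem mem_iff_ord {f : F} (hf : f ≠ 0) : f ∈ v.toValuationSubring ↔ 0 ≤ v.ord f := by
  simp [mem_iff v, hf]

/-- Elements of the valuation ring have order at least `0`. -/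
theorem ord_nonneg {f : F} (hf : f ∈ v.toValuationSubring) : 0 ≤ v.ord f := by
  rcases (mem_iff v).mp hf with rfl | h
  · simp
  · exact h

/-- Elements of order at least `n` at `v`, together with `0`. -/
def ordGe (v : Place K F) (n : ℤ) : Submodule K F where
  carrier := {f | v.adicValuation f ≤ exp (-n)}
  zero_mem' := by simp
  add_mem' := fun {f g} hf hg => by
    show v.adicValuation (f + g) ≤ _
    exact (Valuation.map_add _ _ _).trans (max_le hf hg)
  smul_mem' := fun c f hf => by
    show v.adicValuation (c • f) ≤ _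
    rw [Algebra.smul_def, map_mul]
    exact (mul_le_of_le_one_left' (v.adicValuation_algebraMap_le_one c)).trans hf

/-- `ordGe v n` consists of zero and the elements of order at least `n`. -/
theorem mem_ordGe {n : ℤ} {f : F} : f ∈ ordGe v n ↔ f = 0 ∨ n ≤ v.ord f := by
  show v.adicValuation f ≤ _ ↔ _
  rw [v.adicValuation_le_exp_iff, neg_neg]

/-- A function of order at least `n` lies in `ordGe v n`. -/
theorem mem_ordGe_of_le {n : ℤ} {f : F} (h : n ≤ v.ord f) : f ∈ ordGe v n :=
  (mem_ordGe v).mpr (Or.inr h)

/-- A nonzero element of `ordGe v n` has order at least `n`. -/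
theorem le_ord_of_mem_ordGe {n : ℤ} {f : F} (hf : f ≠ 0) (h : f ∈ ordGe v n) : n ≤ v.ord f :=
  ((mem_ordGe v).mp h).resolve_left hf

/-- `ordGe v n` decreases in `n`. -/
theorem ordGe_anti {m n : ℤ} (h : m ≤ n) : ordGe v n ≤ ordGe v m := fun f hf => by
  rw [mem_ordGe] at hf ⊢
  rcases hf with hf | hf
  · exact Or.inl hf
  · exact Or.inr (h.trans hf)

/-- `ordGe v 0` is the valuation ring of the place. -/
theorem mem_ordGe_zero {f : F} : f ∈ ordGe v 0 ↔ f ∈ v.toValuationSubring := by
  rw [mem_ordGe, mem_iff]

/-- Lower bounds on orders add under multiplication. -/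
theorem mul_mem_ordGe {m n : ℤ} {f g : F} (hf : f ∈ ordGe v m) (hg : g ∈ ordGe v n) :
    f * g ∈ ordGe v (m + n) := by
  rw [mem_ordGe] at hf hg ⊢
  rcases hf with rfl | hf
  · exact Or.inl (zero_mul g)
  rcases hg with rfl | hg
  · exact Or.inl (mul_zero f)
  rcases eq_or_ne f 0 with rfl | hf0
  · exact Or.inl (zero_mul g)
  rcases eq_or_ne g 0 with rfl | hg0
  · exact Or.inl (mul_zero f)
  exact Or.inr (by rw [v.ord_mul hf0 hg0]; omega)

/-- A lower bound `m` on the order gives `k * m` for the `k`-th power. -/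
theorem pow_mem_ordGe {m : ℤ} {f : F} (hf : f ∈ ordGe v m) (k : ℕ) :
    f ^ k ∈ ordGe v (k * m) := by
  induction k with
  | zero => simp [mem_ordGe_of_le v (show (0 : ℤ) ≤ v.ord (1 : F) by simp)]
  | succ k ih =>
    rw [pow_succ, Nat.cast_succ, add_mul, one_mul]
    exact mul_mem_ordGe v ih hf

/-- The order of a power is the multiple of the order. -/
theorem ord_pow (f : F) (k : ℕ) : v.ord (f ^ k) = k * v.ord f := by
  simpa using v.ord_zpow f (k : ℤ)

/-- The order of a quotient of nonzero functions is the difference of the orders. -/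
theorem ord_div {f g : F} (hf : f ≠ 0) (hg : g ≠ 0) : v.ord (f / g) = v.ord f - v.ord g := by
  rw [div_eq_mul_inv, v.ord_mul hf (inv_ne_zero hg), v.ord_inv, sub_eq_add_neg]

/-- Negation preserves orders. -/
theorem ord_neg (f : F) : v.ord (-f) = v.ord f := by
  simp [Place.ord, Valuation.map_neg]

/-- The order of a sum is at least any common lower bound of the two orders. -/
theorem le_ord_add {f g : F} {n : ℤ} (h : f + g ≠ 0) (hf : n ≤ v.ord f) (hg : n ≤ v.ord g) :
    n ≤ v.ord (f + g) :=
  le_ord_of_mem_ordGe v h (add_mem (mem_ordGe_of_le v hf) (mem_ordGe_of_le v hg))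

/-- A sum has the order of its strictly dominant term. -/
theorem ord_add_eq_left {f g : F} (hf : f ≠ 0) (h : g = 0 ∨ v.ord f < v.ord g) :
    f + g ≠ 0 ∧ v.ord (f + g) = v.ord f := by
  rcases h with rfl | h
  · simp [hf]
  have hfg : f + g ≠ 0 := by
    intro h0
    rw [eq_neg_of_add_eq_zero_left h0, ord_neg] at h
    exact lt_irrefl _ h
  refine ⟨hfg, le_antisymm ?_ (le_ord_add v hfg le_rfl h.le)⟩
  by_contra! hc
  have h2 : v.ord f + 1 ≤ v.ord ((f + g) + (-g)) :=
    le_ord_add v (by simpa using hf) (by omega) (by rw [ord_neg]; omega)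
  simp at h2

theorem ord_add_eq_of_ne {f g : F} (hf : f ≠ 0) (hg : g ≠ 0) (h : v.ord f ≠ v.ord g) :
    f + g ≠ 0 ∧ v.ord (f + g) = min (v.ord f) (v.ord g) := by
  rcases lt_or_gt_of_ne h with h | h
  · obtain ⟨h1, h2⟩ := ord_add_eq_left v hf (Or.inr h)
    exact ⟨h1, by rw [h2, min_eq_left h.le]⟩
  · obtain ⟨h1, h2⟩ := ord_add_eq_left v hg (g := f) (Or.inr h)
    rw [add_comm] at h1 h2
    exact ⟨h1, by rw [h2, min_eq_right h.le]⟩

/-- Constants have order `0`. -/
theorem ord_algebraMap (a : K) : v.ord (algebraMap K F a) = 0 := by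
  rcases eq_or_ne a 0 with rfl | ha
  · simp
  have h1 := ord_nonneg v (v.algebraMap_mem' a)
  have h2 := ord_nonneg v (v.algebraMap_mem' a⁻¹)
  rw [map_inv₀, v.ord_inv] at h2
  omega

/-- Multiplication by a nonzero constant preserves the order. -/
theorem ord_smul' {a : K} (ha : a ≠ 0) (f : F) : v.ord (a • f) = v.ord f := by
  rcases eq_or_ne f 0 with rfl | hf
  · simp
  rw [Algebra.smul_def, v.ord_mul (by simpa using ha) hf, ord_algebraMap, zero_add]

/-- Every place has a uniformiser. -/
theorem exists_uniformizer : ∃ t : F, t ≠ 0 ∧ v.ord t = 1 := by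
  obtain ⟨π, hπ⟩ := IsDiscreteValuationRing.exists_irreducible v.toValuationSubring
  exact ⟨π, by simpa using hπ.ne_zero, v.ord_coe_irreducible hπ⟩

/-- Every integer is the order of some element. -/
theorem exists_ord_eq (n : ℤ) : ∃ t : F, t ≠ 0 ∧ v.ord t = n := by
  obtain ⟨t, ht, ht'⟩ := exists_uniformizer v
  exact ⟨t ^ n, zpow_ne_zero n ht, by rw [v.ord_zpow, ht', mul_one]⟩

/-- Places with nested valuation rings are equal. -/
theorem eq_of_le {v w : Place K F} (h : v.toValuationSubring ≤ w.toValuationSubring) : v = w := by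
  ext1
  by_contra hne
  exact w.ne_top' (ValuationSubring.eq_of_le_of_ne_self (B := w.toValuationSubring) (hle := h)
    (hne := hne))

/-- A residue vanishes exactly for the elements of positive order. -/
theorem residue_eq_zero_iff {a : v.toValuationSubring} :
    residue v.toValuationSubring a = 0 ↔ (a : F) ∈ ordGe v 1 := by
  rw [IsLocalRing.residue_eq_zero_iff, mem_maximalIdeal, mem_nonunits_iff,
    ← v.adicValuation_coe_eq_one_iff, mem_ordGe]
  rcases eq_or_ne (a : F) 0 with h0 | h0
  · simp [h0]
  have h1 := ord_nonneg v a.2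
  rw [v.adicValuation_eq_exp_neg_ord h0, or_iff_right h0, exp_eq_one]
  omega

/-- The residue map on the valuation ring as a `K`-linear map. -/
def residueLin : ↥(ordGe v 0) →ₗ[K] v.ResidueField where
  toFun f := residue v.toValuationSubring ⟨f, (mem_ordGe_zero v).mp f.2⟩
  map_add' f g := by rw [← map_add]; rfl
  map_smul' c f := by
    show residue _ _ = c • residue _ _
    rw [Algebra.smul_def (A := v.ResidueField),
      IsScalarTower.algebraMap_apply K v.toValuationSubring
      v.ResidueField, IsLocalRing.ResidueField.algebraMap_eq, ← map_mul]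
    refine congrArg _ (Subtype.ext ?_)
    exact Algebra.smul_def c (f : F)

theorem residueLin_surjective : Function.Surjective (residueLin v) := fun r => by
  obtain ⟨a, rfl⟩ := residue_surjective (R := v.toValuationSubring) r
  exact ⟨⟨a, (mem_ordGe_zero v).mpr a.2⟩, rfl⟩

/-- The linear residue map vanishes exactly on the elements of positive order. -/
theorem residueLin_eq_zero_iff {f : ↥(ordGe v 0)} :
    residueLin v f = 0 ↔ (f : F) ∈ ordGe v 1 :=
  residue_eq_zero_iff v

end Fermat.Agent.FF
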