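import Fermat.Agent.FF.Along
import Fermat.Prelude.Def_ModularCurve_HeckeOperatorTotal

/-!
# The Hecke correspondences satisfy their side conditions

This is for any field of constants over which both levels are function fields.
-/

set_option autoImplicit false

noncomputable section

open ModularCurve

namespace Fermat.Agent.FF

theorem heckeInputsAlong_of_isFunctionField (L : Type*) [Field L] [Algebra ℚ L] (N ℓ : ℕ)
    [NeZero N] [NeZero ℓ]
    [IsFunctionField L (laurentBaseChange L (modularFunctionFieldFull N))]
    [IsFunctionField L (laurentBaseChange L (modularFunctionFieldFull (N * ℓ)))] :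
    HeckeInputsAlong L N ℓ :=
  heckeInputsAlong_intro (isIntegralAlong _) (isIntegralAlong _)
    (fundamentalIdentityAlong _ _) (finiteAlong _) (normFormulaAlong _ _)

end Fermat.Agent.FF
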